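import Fermat.Agent.S52L.Forms
import Fermat.Prelude.Def_GaloisRep_ComplexConjugation

/-!
# Real points of the icosahedral family
-/

set_option autoImplicit false

namespace Fermat.Agent.S52D

open Fermat.Agent.S52L Polynomial

/-- the value of the form of degree `30` at the golden cusps -/
theorem C6_golden {r : ℝ} (hr : r ^ 2 = r + 1) :
    C6 r 1 = 106562500 * r + 65859375 := by
  have h5 : r ^ 5 = 5 * r + 3 := by
    linear_combination (r ^ 3 + r ^ 2 + 2 * r + 3) * hr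
  set u : ℝ := 5 * r + 3 with hu
  have h2 : u ^ 2 = 11 * u + 1 := by rw [hu]; linear_combination 25 * hr
  have h4 : u ^ 4 = 1353 * u + 122 := by
    linear_combination (u ^ 2 + 11 * u + 122) * h2
  have h5' : u ^ 5 = 15005 * u + 1353 := by
    linear_combination u * h4 + 1353 * h2
  have h6 : u ^ 6 = 166408 * u + 15005 := by
    linear_combination u * h5' + 15005 * h2
  have e : C6 r 1 = -((r ^ 5) ^ 6 + 1) + 522 * ((r ^ 5) ^ 5 - r ^ 5) +
      10005 * ((r ^ 5) ^ 4 + (r ^ 5) ^ 2) := by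
    unfold C6; ring
  rw [e, h5, h6, h5', h4, h2, hu]
  ring

theorem DD_golden {r : ℝ} (hr : r ^ 2 = r + 1) : DD r 1 = 0 := by
  have h5 : r ^ 5 = 5 * r + 3 := by
    linear_combination (r ^ 3 + r ^ 2 + 2 * r + 3) * hr
  have e : DD r 1 = r * ((r ^ 5) ^ 2 - 11 * r ^ 5 - 1) := by
    unfold DD; ring
  rw [e, h5]
  linear_combination 25 * r * hr

theorem C6_zero : C6 (0 : ℝ) 1 = -1 := by norm_num [C6]

theorem DD_zero : DD (0 : ℝ) 1 = 0 := by norm_num [DD]

theorem exists_t {D c6 : ℝ} (hD : D ≠ 0) {t0 t1 : ℝ} (g0 : DD t0 1 = 0) (g1 : DD t1 1 = 0)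
    (f0 : C6 t0 1 < 0) (f1 : 0 < C6 t1 1) (hs : ∀ t ∈ Set.uIcc t0 t1, 0 ≤ DD t 1 * D) :
    ∃ t, 0 < DD t 1 * D ∧ C6 t 1 ^ 2 * D ^ 5 = c6 ^ 2 * DD t 1 ^ 5 ∧ 0 ≤ C6 t 1 * c6 := by
  set δ := Real.sqrt |D| with hδ
  have hδ0 : 0 < δ := Real.sqrt_pos.2 (abs_pos.2 hD)
  have hδ2 : δ ^ 2 = |D| := Real.sq_sqrt (abs_nonneg D)
  have hcont : Continuous fun t : ℝ => C6 t 1 * δ ^ 5 - c6 * Real.sqrt |DD t 1| ^ 5 := by
    unfold C6 DD
    fun_prop
  have h0 : C6 t0 1 * δ ^ 5 - c6 * Real.sqrt |DD t0 1| ^ 5 < 0 := by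
    rw [g0, abs_zero, Real.sqrt_zero]
    have := mul_neg_of_neg_of_pos f0 (pow_pos hδ0 5)
    simpa using this
  have h1 : 0 < C6 t1 1 * δ ^ 5 - c6 * Real.sqrt |DD t1 1| ^ 5 := by
    rw [g1, abs_zero, Real.sqrt_zero]
    have := mul_pos f1 (pow_pos hδ0 5)
    simpa using this
  obtain ⟨t, ht, ht0⟩ := intermediate_value_uIcc (a := t0) (b := t1) (hcont.continuousOn)
    (show (0 : ℝ) ∈ Set.uIcc _ _ from Set.mem_uIcc.2 (Or.inl ⟨h0.le, h1.le⟩))
  have h2 : C6 t 1 * δ ^ 5 = c6 * Real.sqrt |DD t 1| ^ 5 := sub_eq_zero.1 ht0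
  set γ := Real.sqrt |DD t 1| with hγ
  have hγ0 : 0 ≤ γ := Real.sqrt_nonneg _
  have hγ2 : γ ^ 2 = |DD t 1| := Real.sq_sqrt (abs_nonneg _)
  have h3 : C6 t 1 ^ 2 * |D| ^ 5 = c6 ^ 2 * |DD t 1| ^ 5 := by
    rw [← hδ2, ← hγ2]
    linear_combination (C6 t 1 * δ ^ 5 + c6 * γ ^ 5) * h2
  have hne : DD t 1 ≠ 0 := by
    intro h
    rw [h, abs_zero, zero_pow (by norm_num), mul_zero] at h3
    have h4 : C6 t 1 = 0 := by
      rcases mul_eq_zero.1 h3 with h5 | h5
      · simpa using h5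
      · exact absurd h5 (pow_ne_zero 5 (abs_ne_zero.2 hD))
    have h5 := syzygy t (1 : ℝ)
    rw [h, h4] at h5
    have h6 : C4 t (1 : ℝ) = 0 := by
      have : C4 t (1 : ℝ) ^ 3 = 0 := by linear_combination h5
      simpa using this
    exact one_ne_zero (eq_zero_of_DD_C4 (by norm_num) h h6).2
  have hpos : 0 < DD t 1 * D := lt_of_le_of_ne (hs t ht) (mul_ne_zero hne hD).symm
  refine ⟨t, hpos, ?_, ?_⟩
  · rcases lt_or_gt_of_ne hD with h | h
    · have h' : DD t 1 < 0 := by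
        by_contra hc
        push Not at hc
        have := mul_nonpos_of_nonneg_of_nonpos hc h.le
        linarith
      rw [abs_of_neg h, abs_of_neg h'] at h3
      linear_combination -h3
    · have h' : 0 < DD t 1 := by
        by_contra hc
        push Not at hc
        have := mul_nonpos_of_nonpos_of_nonneg hc h.le
        linarith
      rwa [abs_of_pos h, abs_of_pos h'] at h3
  · have h4 : C6 t 1 * c6 * δ ^ 5 = c6 ^ 2 * γ ^ 5 := by linear_combination c6 * h2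
    have h5 : 0 ≤ C6 t 1 * c6 * δ ^ 5 := by rw [h4]; positivity
    by_contra hc
    push Not at hc
    have := mul_neg_of_neg_of_pos hc (pow_pos hδ0 5)
    linarith

theorem exists_t' {D : ℝ} (c6 : ℝ) (hD : D ≠ 0) :
    ∃ t, 0 < DD t 1 * D ∧ C6 t 1 ^ 2 * D ^ 5 = c6 ^ 2 * DD t 1 ^ 5 ∧ 0 ≤ C6 t 1 * c6 := by
  have hs5 : Real.sqrt 5 ^ 2 = 5 := Real.sq_sqrt (by norm_num)
  have hs50 : 0 ≤ Real.sqrt 5 := Real.sqrt_nonneg _
  set w := Real.sqrt 5 with hw
  have hw1 : 2 < w := by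
    rw [hw, Real.lt_sqrt (by norm_num)]; norm_num
  have hw2 : w < 2.23607 := by
    rw [hw, Real.sqrt_lt' (by norm_num)]; norm_num
  have key : ∀ (r : ℝ), r ^ 2 = r + 1 → ∀ t : ℝ, DD t 1 =
      t * ((t ^ 5 - r ^ 5) * (t ^ 5 - (1 - r) ^ 5)) := by
    intro r hr t
    have h5 : r ^ 5 = 5 * r + 3 := by
      linear_combination (r ^ 3 + r ^ 2 + 2 * r + 3) * hr
    have hr' : (1 - r) ^ 2 = (1 - r) + 1 := by linear_combination hr
    have h5' : (1 - r) ^ 5 = 5 * (1 - r) + 3 := by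
      linear_combination ((1 - r) ^ 3 + (1 - r) ^ 2 + 2 * (1 - r) + 3) * hr'
    have e : DD t 1 = t * ((t ^ 5) ^ 2 - 11 * t ^ 5 - 1) := by
      unfold DD; ring
    rw [e, h5, h5']
    linear_combination 25 * t * hr
  rcases lt_or_gt_of_ne hD with h | h
  · -- the interval `[0, φ]`
    have hr : ((1 + w) / 2) ^ 2 = (1 + w) / 2 + 1 := by linear_combination (1 / 4) * hs5
    refine exists_t hD (t0 := 0) (t1 := (1 + w) / 2) DD_zero (DD_golden hr)
      (by rw [C6_zero]; norm_num) (by rw [C6_golden hr]; linarith) fun t ht => ?_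
    rw [Set.uIcc_of_le (by linarith)] at ht
    have h1 : t ^ 5 ≤ ((1 + w) / 2) ^ 5 := pow_le_pow_left₀ ht.1 ht.2 5
    have h2 : (1 - (1 + w) / 2) ^ 5 < 0 := by
      rw [show (1 - (1 + w) / 2) ^ 5 = -(((w - 1) / 2) ^ 5) by ring]
      have := pow_pos (show 0 < (w - 1) / 2 by linarith) 5
      linarith
    have h3 : 0 ≤ t ^ 5 := pow_nonneg ht.1 5
    rw [key _ hr]
    have h4 : (t ^ 5 - ((1 + w) / 2) ^ 5) * (t ^ 5 - (1 - (1 + w) / 2) ^ 5) ≤ 0 :=
      mul_nonpos_of_nonpos_of_nonneg (by linarith) (by linarith)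
    exact mul_nonneg_of_nonpos_of_nonpos (mul_nonpos_of_nonneg_of_nonpos ht.1 h4) h.le
  · -- the interval `[-1/φ, 0]`
    have hr : ((1 - w) / 2) ^ 2 = (1 - w) / 2 + 1 := by linear_combination (1 / 4) * hs5
    refine exists_t hD (t0 := 0) (t1 := (1 - w) / 2) DD_zero (DD_golden hr)
      (by rw [C6_zero]; norm_num) (by rw [C6_golden hr]; linarith) fun t ht => ?_
    rw [Set.uIcc_of_ge (by linarith)] at ht
    have h1 : ((1 - w) / 2) ^ 5 ≤ t ^ 5 :=
      (Odd.strictMono_pow (by decide : Odd 5)).monotone ht.1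
    have h2 : 0 < (1 - (1 - w) / 2) ^ 5 := by
      exact pow_pos (by linarith) 5
    have h3 : t ^ 5 ≤ 0 := by
      have := (Odd.strictMono_pow (R := ℝ) (by decide : Odd 5)).monotone ht.2
      simpa using this
    rw [key _ hr]
    have h4 : (t ^ 5 - ((1 - w) / 2) ^ 5) * (t ^ 5 - (1 - (1 - w) / 2) ^ 5) ≤ 0 :=
      mul_nonpos_of_nonneg_of_nonpos (by linarith) (by linarith)
    exact mul_nonneg (mul_nonneg_of_nonpos_of_nonpos ht.2 h4) h.le

theorem exists_real {c4 c6 D : ℝ} (h : c4 ^ 3 - c6 ^ 2 = 1728 * D ^ 5) (hD : D ≠ 0) :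
    ∃ t s : ℝ, s ^ 12 * DD t 1 = D ∧ C6 t 1 ^ 2 * D ^ 5 = c6 ^ 2 * DD t 1 ^ 5 ∧ DD t 1 ≠ 0 ∧
      C4 (s * t) s = c4 ∧ C6 (s * t) s = c6 ∧ DD (s * t) s = D := by
  obtain ⟨t, ht1, ht2, ht3⟩ := exists_t' c6 hD
  have hg : DD t 1 ≠ 0 := by
    intro h0
    rw [h0, zero_mul] at ht1
    exact lt_irrefl _ ht1
  have hq : 0 < D / DD t 1 := by
    have : D / DD t 1 = (DD t 1 * D) / (DD t 1) ^ 2 := by field_simp
    rw [this]
    positivity
  obtain ⟨s, hs0, hs⟩ : ∃ s : ℝ, 0 < s ∧ s ^ 12 = D / DD t 1 := by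
    refine ⟨(D / DD t 1) ^ (((12 : ℕ) : ℝ)⁻¹), Real.rpow_pos_of_pos hq _, ?_⟩
    exact Real.rpow_inv_natCast_pow hq.le (by norm_num)
  have e1 : s ^ 12 * DD t 1 = D := by rw [hs]; field_simp
  have e2 : DD (s * t) s = D := by
    have := DD_smul s t 1
    rw [mul_one] at this
    rw [this, e1]
  have e3 : C6 (s * t) s = s ^ 30 * C6 t 1 := by
    have := C6_smul s t 1
    rwa [mul_one] at this
  have e4 : C6 (s * t) s = c6 := by
    have h1 : C6 (s * t) s ^ 2 = c6 ^ 2 := by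
      have h2 : (DD t 1) ^ 5 ≠ 0 := pow_ne_zero 5 hg
      apply mul_right_cancel₀ h2
      rw [e3]
      have h3 : (s ^ 12 * DD t 1) ^ 5 = D ^ 5 := by rw [e1]
      linear_combination ht2 + C6 t 1 ^ 2 * h3
    have h2 : 0 ≤ C6 (s * t) s * c6 := by
      rw [e3, mul_assoc]
      positivity
    rcases sq_eq_sq_iff_eq_or_eq_neg.1 h1 with h3 | h3
    · exact h3
    · rw [h3] at h2 ⊢
      have h4 : c6 ^ 2 ≤ 0 := by nlinarith
      have h5 : c6 = 0 := by
        have := le_antisymm h4 (sq_nonneg c6)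
        simpa using this
      rw [h5, neg_zero]
  refine ⟨t, s, e1, ht2, hg, ?_, e4, e2⟩
  have h1 := syzygy (s * t) s
  rw [e4, e2] at h1
  have h2 : C4 (s * t) s ^ 3 = c4 ^ 3 := by linear_combination h1 - h
  exact (Odd.strictMono_pow (by decide : Odd 3)).injective h2

theorem exists_pre {x : ℂ} (h : IsAlgebraic ℚ x) : ∃ y : AlgebraicClosure ℚ,
    complexEmbedding y = x := by
  obtain ⟨P, hP, hx⟩ := h
  have hs : (P.map (algebraMap ℚ (AlgebraicClosure ℚ))).Splits := IsAlgClosed.splits _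
  have h0 : P.map (algebraMap ℚ (AlgebraicClosure ℚ)) ≠ 0 :=
    (Polynomial.map_ne_zero_iff (algebraMap ℚ (AlgebraicClosure ℚ)).injective).2 hP
  have hr : ((P.map (algebraMap ℚ (AlgebraicClosure ℚ))).map
      complexEmbedding.toRingHom).IsRoot x := by
    rw [Polynomial.map_map, Polynomial.IsRoot.def, Polynomial.eval_map]
    have e : complexEmbedding.toRingHom.comp (algebraMap ℚ (AlgebraicClosure ℚ)) =
        algebraMap ℚ ℂ := Subsingleton.elim _ _
    rw [e]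
    exact hx
  obtain ⟨y, hy⟩ := hs.mem_range_of_isRoot h0 hr
  exact ⟨y, hy⟩

/-- **Real points**: the curve lies in the icosahedral family, with a real parameter. -/
theorem exists_w0_real (W : WeierstrassCurve ℤ) (hΔ : W.Δ ≠ 0) :
    ∃ a b : AlgebraicClosure ℚ,
      C4 a b = (W.Δ : AlgebraicClosure ℚ) ^ 8 * W.c₄ ∧
      C6 a b = (W.Δ : AlgebraicClosure ℚ) ^ 12 * W.c₆ ∧
      DD a b = (W.Δ : AlgebraicClosure ℚ) ^ 5 ∧
      complexConjugation a = a ∧ complexConjugation b = b := by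
  have hrel : (W.c₄ : ℝ) ^ 3 - (W.c₆ : ℝ) ^ 2 = 1728 * (W.Δ : ℝ) := by
    have := W.c_relation
    have h2 : ((1728 * W.Δ : ℤ) : ℝ) = ((W.c₄ ^ 3 - W.c₆ ^ 2 : ℤ) : ℝ) := by rw [this]
    push_cast at h2
    exact h2.symm
  have hΔR : (W.Δ : ℝ) ≠ 0 := by exact_mod_cast hΔ
  obtain ⟨t, s, e1, e2, e3, e4, e5, e6⟩ := exists_real
    (c4 := (W.Δ : ℝ) ^ 8 * W.c₄) (c6 := (W.Δ : ℝ) ^ 12 * W.c₆) (D := (W.Δ : ℝ) ^ 5)
    (by linear_combination (W.Δ : ℝ) ^ 24 * hrel) (pow_ne_zero 5 hΔR)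
  -- algebraicity
  have ht : IsAlgebraic ℚ (t : ℂ) := by
    refine ⟨C ((W.Δ : ℚ) ^ 25) * C6 X 1 ^ 2 - C (((W.Δ : ℚ) ^ 12 * W.c₆) ^ 2) * DD X 1 ^ 5,
      ?_, ?_⟩
    · intro h
      have h1 := congrArg (Polynomial.eval 0) h
      have h2 : Polynomial.eval 0 (C6 (X : ℚ[X]) 1) = -1 := by
        rw [← Polynomial.coe_evalRingHom, map_C6]
        simp [C6]
      have h3 : Polynomial.eval 0 (DD (X : ℚ[X]) 1) = 0 := by
        rw [← Polynomial.coe_evalRingHom, map_DD]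
        simp [DD]
      rw [Polynomial.eval_sub, Polynomial.eval_mul, Polynomial.eval_mul, Polynomial.eval_pow,
        Polynomial.eval_pow, h2, h3, Polynomial.eval_C, Polynomial.eval_C,
        Polynomial.eval_zero] at h1
      apply hΔ
      have h4 : (W.Δ : ℚ) ^ 25 = 0 := by linear_combination h1
      have h5 : (W.Δ : ℚ) = 0 := by simpa using h4
      exact_mod_cast h5
    · have h1 : aeval (t : ℂ) (C6 (X : ℚ[X]) 1) = ((C6 t 1 : ℝ) : ℂ) := by
        have e1 : aeval (t : ℂ) (C6 (X : ℚ[X]) 1) = C6 (t : ℂ) 1 := by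
          have := map_C6 (aeval (R := ℚ) (t : ℂ)).toRingHom X 1
          simpa using this
        have e2 : ((C6 t 1 : ℝ) : ℂ) = C6 (t : ℂ) 1 := by
          have := map_C6 Complex.ofRealHom t 1
          simpa using this
        rw [e1, e2]
      have h2 : aeval (t : ℂ) (DD (X : ℚ[X]) 1) = ((DD t 1 : ℝ) : ℂ) := by
        have e1 : aeval (t : ℂ) (DD (X : ℚ[X]) 1) = DD (t : ℂ) 1 := by
          have := map_DD (aeval (R := ℚ) (t : ℂ)).toRingHom X 1
          simpa using this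
        have e2 : ((DD t 1 : ℝ) : ℂ) = DD (t : ℂ) 1 := by
          have := map_DD Complex.ofRealHom t 1
          simpa using this
        rw [e1, e2]
      rw [map_sub, map_mul, map_mul, map_pow (aeval (t : ℂ)) (C6 _ _),
        map_pow (aeval (t : ℂ)) (DD _ _), h1, h2, aeval_C, aeval_C]
      have h3 := congrArg (fun x : ℝ => (x : ℂ)) e2
      push_cast at h3
      simp only [map_pow, map_mul, map_intCast]
      linear_combination h3
  have hs : IsAlgebraic ℚ (s : ℂ) := by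
    apply IsAlgebraic.of_pow (n := 12) (by norm_num)
    have h1 : (s : ℂ) ^ 12 = (W.Δ : ℂ) ^ 5 * (DD (t : ℂ) 1)⁻¹ := by
      have h2 : DD (t : ℂ) 1 = ((DD t 1 : ℝ) : ℂ) := by
        rw [← Complex.ofRealHom_eq_coe, ← Complex.ofRealHom_eq_coe, map_DD]
        simp
      rw [h2, eq_mul_inv_iff_mul_eq₀ (by exact_mod_cast e3)]
      exact_mod_cast e1
    rw [h1]
    have h2 : ∀ n : ℤ, IsAlgebraic ℚ ((n : ℤ) : ℂ) := fun n => by
      have := isAlgebraic_algebraMap (R := ℚ) (A := ℂ) (n : ℚ)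
      simpa using this
    refine ((h2 _).pow 5).mul (IsAlgebraic.inv ?_)
    have h3 : IsAlgebraic ℚ (1 : ℂ) := isAlgebraic_one
    have h11 : IsAlgebraic ℚ (11 : ℂ) := by simpa using h2 11
    unfold DD
    exact (ht.mul h3).mul (((ht.pow 10).sub ((h11.mul (ht.pow 5)).mul (h3.pow 5))).sub
      (h3.pow 10))
  have hinj : Function.Injective complexEmbedding :=
    (complexEmbedding : AlgebraicClosure ℚ →+* ℂ).injective
  obtain ⟨b, hb⟩ := exists_pre hs
  obtain ⟨a, ha⟩ := exists_pre (hs.mul ht)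
  have hconj : ∀ (x : AlgebraicClosure ℚ) (r : ℝ), complexEmbedding x = (r : ℂ) →
      complexConjugation x = x := by
    intro x r hx
    apply hinj
    rw [complexEmbedding_complexConjugation, hx, Complex.conj_ofReal]
  refine ⟨a, b, ?_, ?_, ?_, hconj a (s * t) (by rw [ha]; push_cast; rfl), hconj b s hb⟩
  · apply hinj
    have h1 : complexEmbedding (C4 a b) = C4 (complexEmbedding a) (complexEmbedding b) :=
      map_C4 (complexEmbedding : AlgebraicClosure ℚ →+* ℂ) a b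
    rw [h1, ha, hb]
    have h2 := congrArg (Complex.ofRealHom) e4
    rw [map_C4] at h2
    simpa using h2
  · apply hinj
    have h1 : complexEmbedding (C6 a b) = C6 (complexEmbedding a) (complexEmbedding b) :=
      map_C6 (complexEmbedding : AlgebraicClosure ℚ →+* ℂ) a b
    rw [h1, ha, hb]
    have h2 := congrArg (Complex.ofRealHom) e5
    rw [map_C6] at h2
    simpa using h2
  · apply hinj
    have h1 : complexEmbedding (DD a b) = DD (complexEmbedding a) (complexEmbedding b) :=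
      map_DD (complexEmbedding : AlgebraicClosure ℚ →+* ℂ) a b
    rw [h1, ha, hb]
    have h2 := congrArg (Complex.ofRealHom) e6
    rw [map_DD] at h2
    simpa using h2

end Fermat.Agent.S52D
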