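import Mathlib

/-!
# A computation in `GL₂(𝔽₃)`
-/

set_option autoImplicit false

namespace Fermat.Agent.S52D

theorem aux1 : ∀ a b c d : ZMod 3, (a * (a * a + b * c) + b * (c * a + d * c) = 1 →
    a * (a * b + b * d) + b * (c * b + d * d) = 0 →
    c * (a * a + b * c) + d * (c * a + d * c) = 0 →
    c * (a * b + b * d) + d * (c * b + d * d) = 1 → d = 2 - a ∧ a * (2 - a) - b * c = 1) := by
  decide

theorem aux2 : ∀ e f h k : ZMod 3, (e * e + f * h = e + 1 ∧ e * f + f * k = f ∧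
    h * e + k * h = h ∧ h * f + k * k = k + 1) → (k = 1 - e ∧ e * (1 - e) - f * h = -1) := by
  decide

theorem aux3 : ∀ a b c : ZMod 3, a * (2 - a) - b * c = 1 → (a = 1 → b = 0 → c ≠ 0) →
    ∀ e f h : ZMod 3, e * (1 - e) - f * h = -1 →
    ((a * e + b * h) * (a * (e - 1) + b * h) + (a * f + b * (1 - e)) * (c * (e - 1) + (2 - a) * h)) +
      ((c * e + (2 - a) * h) * (a * f - b * e) + (c * f + (2 - a) * (1 - e)) * (c * f - (2 - a) * e))
      = 0 := by
  decide

theorem mat_key (u g : Matrix (Fin 2) (Fin 2) (ZMod 3)) (hu : u ^ 3 = 1) (hu1 : u ≠ 1)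
    (hg : g ^ 2 = g + 1) : (u * g * (u * (g - 1))) ^ 2 = -1 := by
  obtain ⟨a, ha⟩ : ∃ a, a = u 0 0 := ⟨_, rfl⟩
  obtain ⟨b, hb⟩ : ∃ a, a = u 0 1 := ⟨_, rfl⟩
  obtain ⟨c, hc⟩ : ∃ a, a = u 1 0 := ⟨_, rfl⟩
  obtain ⟨d, hd⟩ : ∃ a, a = u 1 1 := ⟨_, rfl⟩
  obtain ⟨e, he⟩ : ∃ a, a = g 0 0 := ⟨_, rfl⟩
  obtain ⟨f, hf⟩ : ∃ a, a = g 0 1 := ⟨_, rfl⟩
  obtain ⟨h, hh⟩ : ∃ a, a = g 1 0 := ⟨_, rfl⟩
  obtain ⟨k, hk⟩ : ∃ a, a = g 1 1 := ⟨_, rfl⟩
  have e1 : u = !![a, b; c, d] := by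
    ext i j
    fin_cases i <;> fin_cases j <;> simp [ha, hb, hc, hd]
  have e2 : g = !![e, f; h, k] := by
    ext i j
    fin_cases i <;> fin_cases j <;> simp [he, hf, hh, hk]
  clear ha hb hc hd he hf hh hk
  subst e1 e2
  rw [pow_succ', pow_two] at hu
  rw [pow_two] at hg
  have u00 := congrFun (congrFun hu 0) 0
  have u01 := congrFun (congrFun hu 0) 1
  have u10 := congrFun (congrFun hu 1) 0
  have u11 := congrFun (congrFun hu 1) 1
  have g00 := congrFun (congrFun hg 0) 0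
  have g01 := congrFun (congrFun hg 0) 1
  have g10 := congrFun (congrFun hg 1) 0
  have g11 := congrFun (congrFun hg 1) 1
  simp [Matrix.mul_apply, Fin.sum_univ_two] at u00 u01 u10 u11 g00 g01 g10 g11
  obtain ⟨hd, hud⟩ := aux1 a b c d u00 u01 u10 u11
  obtain ⟨hk, hgd⟩ := aux2 e f h k ⟨g00, g01, g10, g11⟩
  have hne : a = 1 → b = 0 → c ≠ 0 := by
    rintro rfl rfl rfl
    apply hu1
    rw [hd]
    ext i j
    fin_cases i <;> fin_cases j <;> simp <;> decide
  have key := aux3 a b c hud hne e f h hgd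
  subst hd hk
  have hdet : ((a * e + b * h) * (a * (e - 1) + b * h) + (a * f + b * (1 - e)) * (c * (e - 1) + (2 - a) * h)) *
    ((c * e + (2 - a) * h) * (a * f - b * e) + (c * f + (2 - a) * (1 - e)) * (c * f - (2 - a) * e)) -
    ((a * e + b * h) * (a * f - b * e) + (a * f + b * (1 - e)) * (c * f - (2 - a) * e)) *
    ((c * e + (2 - a) * h) * (a * (e - 1) + b * h) + (c * f + (2 - a) * (1 - e)) * (c * (e - 1) + (2 - a) * h))
     = 1 := by
    have h1 : ((a * e + b * h) * (a * (e - 1) + b * h) + (a * f + b * (1 - e)) * (c * (e - 1) + (2 - a) * h)) *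
    ((c * e + (2 - a) * h) * (a * f - b * e) + (c * f + (2 - a) * (1 - e)) * (c * f - (2 - a) * e)) -
    ((a * e + b * h) * (a * f - b * e) + (a * f + b * (1 - e)) * (c * f - (2 - a) * e)) *
    ((c * e + (2 - a) * h) * (a * (e - 1) + b * h) + (c * f + (2 - a) * (1 - e)) * (c * (e - 1) + (2 - a) * h)) =
      (a * (2 - a) - b * c) ^ 2 * (e * (1 - e) - f * h) ^ 2 := by ring
    rw [h1, hud, hgd]; norm_num
  have hg1 : (!![e, f; h, 1 - e] - 1 : Matrix (Fin 2) (Fin 2) (ZMod 3)) = !![e - 1, f; h, -e] := by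
    ext i j
    fin_cases i <;> fin_cases j <;> simp
  have hM : !![a, b; c, 2 - a] * !![e, f; h, 1 - e] * (!![a, b; c, 2 - a] * (!![e, f; h, 1 - e] - 1)) =
      !![((a * e + b * h) * (a * (e - 1) + b * h) + (a * f + b * (1 - e)) * (c * (e - 1) + (2 - a) * h)),
        ((a * e + b * h) * (a * f - b * e) + (a * f + b * (1 - e)) * (c * f - (2 - a) * e));
        ((c * e + (2 - a) * h) * (a * (e - 1) + b * h) + (c * f + (2 - a) * (1 - e)) * (c * (e - 1) + (2 - a) * h)),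
        ((c * e + (2 - a) * h) * (a * f - b * e) + (c * f + (2 - a) * (1 - e)) * (c * f - (2 - a) * e))] := by
    rw [hg1]
    ext i j
    fin_cases i <;> fin_cases j <;> simp [Matrix.mul_apply, Fin.sum_univ_two] <;> ring
  rw [hM]
  generalize ((a * e + b * h) * (a * (e - 1) + b * h) + (a * f + b * (1 - e)) * (c * (e - 1) + (2 - a) * h)) = A
    at key hdet ⊢
  generalize ((a * e + b * h) * (a * f - b * e) + (a * f + b * (1 - e)) * (c * f - (2 - a) * e)) = B
    at hdet ⊢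
  generalize ((c * e + (2 - a) * h) * (a * (e - 1) + b * h) + (c * f + (2 - a) * (1 - e)) * (c * (e - 1) + (2 - a) * h)) = C
    at hdet ⊢
  generalize ((c * e + (2 - a) * h) * (a * f - b * e) + (c * f + (2 - a) * (1 - e)) * (c * f - (2 - a) * e)) = D
    at key hdet ⊢
  rw [pow_two]
  ext i j
  fin_cases i <;> fin_cases j <;> simp [Matrix.mul_apply, Fin.sum_univ_two]
  · linear_combination A * key - hdet
  · linear_combination B * key
  · linear_combination C * key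
  · linear_combination D * key - hdet

end Fermat.Agent.S52D
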